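import Fermat.Agent.ClassField.GW.Euler.Ext
import Fermat.Agent.ClassField.GW.Defs
import Mathlib.RingTheory.Finiteness.Finsupp

/-!
# Additivity of the Euler characteristic in the finite module
-/

set_option autoImplicit false

namespace Fermat.Agent.ClassField.GW

open Fermat.Agent.ClassField.S55

variable {G : Type} [Group G] {p : ℕ} [Fact p.Prime]
variable {X : Type*} [AddCommGroup X] [DistribMulAction G X]

omit [Fact p.Prime] in
/-- only the kernel of the presentation matters -/
theorem eulOf_congr_ker {L N N' : Type*} [AddCommGroup L] [DistribMulAction G L]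
    [AddCommGroup N] [DistribMulAction G N] [AddCommGroup N'] [DistribMulAction G N']
    [Fact p.Prime] (π : L →+[G] N) (π' : L →+[G] N') (h : ∀ x, π x = 0 ↔ π' x = 0) :
    eulOf p π X = eulOf p π' X ∧ (HFin (resMap π X) ↔ HFin (resMap π' X)) := by
  let e : kerOf π' →+[G] kerOf π :=
    { toFun := fun x => ⟨x.1, (h _).2 x.2⟩, map_smul' := fun g x => rfl, map_zero' := rfl,
      map_add' := fun x y => rfl }
  let e' : kerOf π →+[G] kerOf π' :=
    { toFun := fun x => ⟨x.1, (h _).1 x.2⟩, map_smul' := fun g x => rfl, map_zero' := rfl,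
      map_add' := fun x y => rfl }
  exact hv_congr (AddEquiv.refl _)
    { toFun := fixMap (CHom.pre e), invFun := fixMap (CHom.pre e'), left_inv := fun f => rfl,
      right_inv := fun f => rfl, map_add' := map_add _ }
    fun f => rfl

section Finite

variable {L N : Type*} [AddCommGroup L] [DistribMulAction G L] [AddCommGroup N]
  [DistribMulAction G N]

variable (hXf : PFinite p X)
include hXf

omit [Group G] [DistribMulAction G X] [DistribMulAction G N] in
theorem finite_CHom [Finite N] (hN : ∀ n : N, p • n = 0) : Finite (CHom N X) := by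
  have := hXf.tors
  refine Finite.of_injective (β := N → {x : X // p • x = 0}) (fun f n =>
    ⟨f n, by rw [← map_nsmul, hN, map_zero]⟩) fun f f' h =>
    CHom.ext' fun n => congrArg Subtype.val (congrFun h n)

theorem finite_fixed_CHom [Finite N] (hN : ∀ n : N, p • n = 0) :
    Finite (fixedSub G (CHom N X)) :=
  have := finite_CHom hXf hN
  inferInstance

/-- the invariants of a lattice homomorphism group modulo `p` are finite -/
theorem finiteIndex_nsmul_fixed [Finite G] {B : Type*} [AddCommGroup B] [DistribMulAction G B]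
    [Module.Free ℤ B] [Module.Finite ℤ B] :
    (nsmulAddMonoidHom (α := fixedSub G (CHom B X)) p).range.index ≠ 0 := by
  classical
  have := hXf.quot
  have := hXf.tors
  let bas := Module.Free.chooseBasis ℤ B
  let F := fixedSub G (CHom B X)
  let red : F →+ (Module.Free.ChooseBasisIndex ℤ B → X ⧸ pSub p X) :=
    { toFun := fun f i => (f.1 (bas i) : X ⧸ pSub p X)
      map_zero' := rfl
      map_add' := fun f f' => rfl }
  let S : AddSubgroup (CHom B X) := F.comap (nsmulAddMonoidHom p)
  let ψ : S →+ (G → Module.Free.ChooseBasisIndex ℤ B → X) :=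
    { toFun := fun y g i => (g • y.1 - y.1) (bas i)
      map_zero' := by ext g i; simp
      map_add' := fun y y' => by
        ext g i
        simp only [AddSubgroup.coe_add, smul_add, Pi.add_apply, CHom.sub_apply, CHom.add_apply]
        abel }
  have hψf : Finite ψ.range := by
    refine Finite.of_injective (β := G → Module.Free.ChooseBasisIndex ℤ B → {x : X // p • x = 0})
      (fun z g i => ⟨z.1 g i, ?_⟩) fun z z' h =>
        Subtype.ext (funext fun g => funext fun i => congrArg Subtype.val (congrFun (congrFun h g) i))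
    obtain ⟨y, hy⟩ := z.2
    rw [← hy]
    show p • (g • y.1 - y.1) (bas i) = 0
    rw [← CHom.nsmul_apply, nsmul_sub, smul_comm p g]
    have := y.2 g
    change g • (p • y.1) = p • y.1 at this
    rw [this, sub_self, CHom.zero_apply]
  have hψk : ψ.ker.index ≠ 0 := by
    rw [AddSubgroup.index_ker]
    exact Nat.card_pos.ne'
  let pS : S →+ F := ((nsmulAddMonoidHom p).comp S.subtype).codRestrict F fun y => y.2
  have hmap : ψ.ker.map pS ≤ (nsmulAddMonoidHom (α := F) p).range := by
    rintro _ ⟨y, hy, rfl⟩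
    refine ⟨⟨y.1, fun g => ?_⟩, rfl⟩
    rw [← sub_eq_zero]
    have h0 : (g • y.1 - y.1).hom.toIntLinearMap = 0 :=
      bas.ext fun i => congrFun (congrFun hy g) i
    exact CHom.ext' fun x => LinearMap.congr_fun h0 x
  have hker : red.ker ≤ pS.range := by
    intro f hf
    have h : ∀ i, ∃ x, p • x = f.1 (bas i) := fun i =>
      mem_pSub.1 ((QuotientAddGroup.eq_zero_iff _).1 (congrFun hf i))
    choose x hx using h
    let y : CHom B X := ⟨(bas.constr ℤ x).toAddMonoidHom⟩
    have hy : p • y = f.1 := by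
      have : (p • y).hom.toIntLinearMap = f.1.hom.toIntLinearMap := bas.ext fun i => by
        show (p • y) (bas i) = f.1 (bas i)
        rw [CHom.nsmul_apply, ← hx i]
        exact congrArg _ (bas.constr_basis ℤ x i)
      exact CHom.ext' fun z => LinearMap.congr_fun this z
    exact ⟨⟨y, by show p • y ∈ F; rw [hy]; exact f.2⟩, Subtype.ext hy⟩
  have hred : red.ker.index ≠ 0 := by
    rw [AddSubgroup.index_ker]
    exact Nat.card_pos.ne'
  have hpS : pS.range.index ≠ 0 := fun h => hred
    (Nat.eq_zero_of_zero_dvd (h ▸ AddSubgroup.index_dvd_of_le hker))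
  refine fun h => ?_
  have h2 := AddSubgroup.index_dvd_of_le hmap
  rw [h] at h2
  have h3 : (ψ.ker.map pS).index ≠ 0 := by
    rw [AddSubgroup.index_map]
    refine mul_ne_zero (fun h4 => hψk ?_) hpS
    exact Nat.eq_zero_of_zero_dvd (h4 ▸ AddSubgroup.index_dvd_of_le le_sup_left)
  exact h3 (Nat.eq_zero_of_zero_dvd h2)

/-- finite kernel and cokernel -/
theorem hfin_resMap [Finite G] [Module.Free ℤ L] [Module.Finite ℤ L] [Finite N]
    (π : L →+[G] N) (hπ : Function.Surjective π) (hN : ∀ n : N, p • n = 0) :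
    HFin (resMap π X) := by
  refine ⟨?_, ?_⟩
  · have := finite_fixed_CHom (G := G) hXf hN
    exact Finite.of_equiv _ (kerResEquiv π hπ)
  · intro h
    refine finiteIndex_nsmul_fixed (G := G) (B := kerOf π) hXf (Nat.eq_zero_of_zero_dvd (h ▸
      AddSubgroup.index_dvd_of_le ?_))
    rintro _ ⟨f, rfl⟩
    exact nsmul_mem_range_resMap π hN f

end Finite

variable [Fintype G]

instance free_Ind {B : Type} [AddCommGroup B] [Module.Free ℤ B] :
    Module.Free ℤ (Ind G B) :=
  Module.Free.of_equiv (AddEquiv.toIntLinearEquiv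
    { toFun := fun f => (⟨f⟩ : Ind G B), invFun := Ind.val, left_inv := fun f => rfl,
      right_inv := fun f => rfl, map_add' := fun f f' => rfl } : (G → B) ≃ₗ[ℤ] Ind G B)

instance finite_Ind {B : Type} [AddCommGroup B] [Module.Finite ℤ B] :
    Module.Finite ℤ (Ind G B) :=
  Module.Finite.equiv (AddEquiv.toIntLinearEquiv
    { toFun := fun f => (⟨f⟩ : Ind G B), invFun := Ind.val, left_inv := fun f => rfl,
      right_inv := fun f => rfl, map_add' := fun f f' => rfl } : (G → B) ≃ₗ[ℤ] Ind G B)

/-- the Euler characteristic of `N` against `X` -/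
noncomputable def eul (p : ℕ) (G : Type) [Group G] [Fintype G] (N : Type) [AddCommGroup N]
    [DistribMulAction G N] (X : Type*) [AddCommGroup X] [DistribMulAction G X] : ℤ :=
  eulOf p (freeCover G N) X

variable {N N₁ N₂ N₃ : Type} [AddCommGroup N] [DistribMulAction G N] [AddCommGroup N₁]
  [DistribMulAction G N₁] [AddCommGroup N₂] [DistribMulAction G N₂] [AddCommGroup N₃]
  [DistribMulAction G N₃]

/-- any lattice presentation computes `eul` -/
theorem eul_eq_eulOf [Finite N] {L : Type} [AddCommGroup L] [DistribMulAction G L]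
    [Module.Free ℤ L] [Module.Finite ℤ L] (π : L →+[G] N) (hπ : Function.Surjective π)
    (hN : ∀ n : N, p • n = 0) (hX : NormSurj p G X) :
    eul p G N X = eulOf p π X :=
  eulOf_eq (freeCover G N) π freeCover_surjective hπ hN hX

/-- invariance under isomorphisms -/
theorem eul_congr [Finite N₁] [Finite N₂] (e : N₁ →+[G] N₂) (he : Function.Bijective e)
    (hN : ∀ n : N₂, p • n = 0) (hX : NormSurj p G X) :
    eul p G N₁ X = eul p G N₂ X := by
  rw [eul_eq_eulOf (e.comp (freeCover G N₁)) (he.2.comp freeCover_surjective) hN hX]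
  exact (eulOf_congr_ker _ _ fun x => (map_eq_zero_iff e he.1).symm).1

/-- additivity in short exact sequences -/
theorem eul_add [Finite N₂] (hXf : PFinite p X) (i : N₁ →+[G] N₂) (f : N₂ →+[G] N₃)
    (hi : Function.Injective i) (hf : Function.Surjective f) (hex : ∀ y, f y = 0 ↔ ∃ x, i x = y)
    (hN : ∀ n : N₂, p • n = 0) (hX : NormSurj p G X) :
    eul p G N₂ X = eul p G N₁ X + eul p G N₃ X := by
  have : Finite N₁ := Finite.of_injective i hi
  have : Finite N₃ := Finite.of_surjective f hf
  have hN₁ : ∀ n : N₁, p • n = 0 := fun n => hi (by rw [map_nsmul, hN, map_zero])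
  have hN₃ : ∀ n : N₃, p • n = 0 := fun n => by
    obtain ⟨y, rfl⟩ := hf n
    rw [← map_nsmul, hN, map_zero]
  let π := freeCover G N₂
  have hπ : Function.Surjective π := freeCover_surjective
  let π₃ : Ind G (N₂ →₀ ℤ) →+[G] N₃ := f.comp π
  have hπ₃ : Function.Surjective π₃ := hf.comp hπ
  choose b hb using fun r : kerOf π₃ => (hex (π r.1)).1 r.2
  let π₁ : kerOf π₃ →+[G] N₁ :=
    { toFun := b
      map_smul' := fun g r => hi (by
        rw [map_smul, hb, hb]
        exact map_smul π g r.1)
      map_zero' := hi (by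
        rw [hb, map_zero]
        exact map_zero π)
      map_add' := fun r r' => hi (by
        rw [map_add, hb, hb, hb]
        exact map_add π r.1 r'.1) }
  have hπ₁ : Function.Surjective π₁ := fun n => by
    obtain ⟨y, hy⟩ := hπ (i n)
    refine ⟨⟨y, ?_⟩, hi ?_⟩
    · show f (π y) = 0
      rw [hy, (hex _).2 ⟨n, rfl⟩]
    · show i (b _) = i n
      rw [hb, hy]
  have hk1 : ∀ x : kerOf π₁, (x.1.1 : Ind G (N₂ →₀ ℤ)) ∈ kerOf π := fun x => by
    rw [mem_kerOf, ← hb]
    exact (congrArg i (mem_kerOf.1 x.2)).trans (map_zero i)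
  have hk2 : ∀ y : kerOf π, π₃ y.1 = 0 := fun y => by
    show f (π y.1) = 0
    rw [mem_kerOf.1 y.2, map_zero]
  have hk3 : ∀ y : kerOf π, (⟨y.1, hk2 y⟩ : kerOf π₃) ∈ kerOf π₁ := fun y => hi (by
    show i (b _) = i 0
    rw [hb, map_zero]
    exact y.2)
  let e : kerOf π₁ →+[G] kerOf π :=
    { toFun := fun x => ⟨x.1.1, hk1 x⟩, map_smul' := fun g x => rfl, map_zero' := rfl,
      map_add' := fun x y => rfl }
  let e' : kerOf π →+[G] kerOf π₁ :=
    { toFun := fun y => ⟨⟨y.1, hk2 y⟩, hk3 y⟩, map_smul' := fun g x => rfl, map_zero' := rfl,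
      map_add' := fun x y => rfl }
  let E : fixedSub G (CHom (kerOf π) X) ≃+ fixedSub G (CHom (kerOf π₁) X) :=
    { toFun := fixMap (CHom.pre e), invFun := fixMap (CHom.pre e'), left_inv := fun f => rfl,
      right_inv := fun f => rfl, map_add' := map_add _ }
  obtain ⟨hcv, hcf⟩ := hv_congr (p := p)
    (f := resMap π X) (f' := (resMap π₁ X).comp (resMap π₃ X)) (AddEquiv.refl _) E fun a => rfl
  rw [eul, eulOf, hcv, hv_comp (hfin_resMap hXf π₃ hπ₃ hN₃) (hfin_resMap hXf π₁ hπ₁ hN₁),
    eul_eq_eulOf π₁ hπ₁ hN₁ hX, eul_eq_eulOf π₃ hπ₃ hN₃ hX, eulOf, eulOf, add_comm]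

/-- vanishing for the zero module -/
theorem eul_subsingleton [Subsingleton N] (hXf : PFinite p X) (hX : NormSurj p G X) :
    eul p G N X = 0 := by
  have : Finite N := inferInstance
  let idN : N →+[G] N :=
    { toFun := id, map_smul' := fun g x => rfl, map_zero' := rfl, map_add' := fun x y => rfl }
  have := eul_add hXf idN idN Function.injective_id Function.surjective_id
    (fun y => ⟨fun _ => ⟨y, rfl⟩, fun _ => Subsingleton.elim _ _⟩)
    (fun n => Subsingleton.elim _ _) hX
  omega

end Fermat.Agent.ClassField.GW
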