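import Fermat.Agent.ClassField.GW.Euler.Hv
import Fermat.Agent.ClassField.S55.TateLattice

/-!
# Euler characteristics of finite modules against an acyclic target

For a lattice presentation `π : L → N` of a finite `p`-torsion `G`-module the number
`eulOf p π X` is `v_p #Ext¹_G(N,X) - v_p #Hom_G(N,X)`; it does not depend on `π` when all
invariant homomorphisms from lattices to `X` are norms up to factors prime to `p`.
-/

set_option autoImplicit false

namespace Fermat.Agent.ClassField.GW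

open Fermat.Agent.ClassField.S55

variable {G : Type*} [Group G]

/-- an equivariant map on invariants -/
def fixMap {V W : Type*} [AddCommGroup V] [DistribMulAction G V] [AddCommGroup W]
    [DistribMulAction G W] (φ : V →+[G] W) : fixedSub G V →+ fixedSub G W :=
  ((φ : V →+ W).comp (fixedSub G V).subtype).codRestrict _ fun v g => by
    show g • φ v.1 = φ v.1
    rw [← map_smul, v.2 g]

@[simp] lemma fixMap_coe {V W : Type*} [AddCommGroup V] [DistribMulAction G V] [AddCommGroup W]
    [DistribMulAction G W] (φ : V →+[G] W) (v : fixedSub G V) :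
    (fixMap φ v : W) = φ v := rfl

variable {L N X : Type*} [AddCommGroup L] [DistribMulAction G L] [AddCommGroup N]
  [DistribMulAction G N] [AddCommGroup X] [DistribMulAction G X]

/-- restriction of invariant homomorphisms to the relations -/
def resMap (π : L →+[G] N) (X : Type*) [AddCommGroup X] [DistribMulAction G X] :
    fixedSub G (CHom L X) →+ fixedSub G (CHom (kerOf π) X) :=
  fixMap (CHom.pre (kerIncl π))

lemma resMap_apply (π : L →+[G] N) (f : fixedSub G (CHom L X)) (r : kerOf π) :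
    (resMap π X f : CHom (kerOf π) X) r = (f : CHom L X) r := rfl

/-- `v_p #Ext¹_G(N,X) - v_p #Hom_G(N,X)` computed from a presentation -/
noncomputable def eulOf (p : ℕ) (π : L →+[G] N) (X : Type*) [AddCommGroup X]
    [DistribMulAction G X] : ℤ :=
  hv p (resMap π X)

/-- precomposition with a surjection identifies `Hom_G(N,X)` with the kernel -/
noncomputable def kerResEquiv (π : L →+[G] N) (hπ : Function.Surjective π) :
    fixedSub G (CHom N X) ≃ (resMap π X).ker :=
  Equiv.ofBijective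
    (fun f => ⟨⟨⟨f.1.hom.comp (π : L →+ N)⟩, fun g => by
        show g • CHom.pre π f.1 = CHom.pre π f.1
        rw [← map_smul, f.2 g]⟩,
      Subtype.ext (CHom.ext' fun r => by
        show f.1 (π r.1) = 0
        rw [mem_kerOf.1 r.2, map_zero])⟩)
    ⟨fun f f' h => Subtype.ext (CHom.ext' fun n => by
      obtain ⟨x, rfl⟩ := hπ n
      exact congrArg (fun e : (resMap π X).ker => (e.1.1 : CHom L X) x) h),
    fun h => by
      have hv : ∀ x y, π x = π y → (h.1.1 : CHom L X) x = (h.1.1 : CHom L X) y := fun x y e => by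
        have := congrArg (fun u : fixedSub G (CHom (kerOf π) X) =>
          (u.1 : CHom (kerOf π) X) ⟨x - y, by rw [mem_kerOf, map_sub, e, sub_self]⟩) h.2
        change (h.1.1 : CHom L X) (x - y) = 0 at this
        rwa [map_sub, sub_eq_zero] at this
      let f : CHom N X := ⟨AddMonoidHom.mk' (fun n => (h.1.1 : CHom L X) (Function.surjInv hπ n))
        fun a b => by
          rw [← map_add]
          exact hv _ _ (by simp [map_add, Function.surjInv_eq hπ])⟩
      have hf : ∀ x, f (π x) = (h.1.1 : CHom L X) x := fun x =>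
        hv _ _ (Function.surjInv_eq hπ (π x))
      refine ⟨⟨f, ?_⟩, Subtype.ext (Subtype.ext (CHom.ext' hf))⟩
      refine (CHom.fixed_iff f).2 fun g n => ?_
      obtain ⟨x, rfl⟩ := hπ n
      rw [← map_smul, hf, hf, (CHom.fixed_iff (h.1.1)).1 h.1.2]⟩

/-- all invariant homomorphisms from lattices are norms, up to factors prime to `p` -/
def NormSurj (p : ℕ) (G X : Type*) [Group G] [Fintype G] [AddCommGroup X]
    [DistribMulAction G X] : Prop :=
  ∀ (R : Type) [AddCommGroup R] [DistribMulAction G R] [Module.Free ℤ R] [Module.Finite ℤ R],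
    ∀ f : CHom R X, (∀ g : G, g • f = f) → ∃ m : ℕ, ¬ p ∣ m ∧ ∃ φ, normSum G φ = m • f

lemma mem_of_two {p : ℕ} [Fact p.Prime] {A : Type*} [AddCommGroup A] {S : AddSubgroup A} {m : ℕ}
    (hm : ¬ p ∣ m) {x : A} (h1 : m • x ∈ S) (h2 : p • x ∈ S) : x ∈ S := by
  obtain ⟨a, b, hab⟩ := Nat.isCoprime_iff_coprime.2
    ((Fact.out : p.Prime).coprime_iff_not_dvd.2 hm)
  have : x = a • ((p : ℤ) • x) + b • ((m : ℤ) • x) := by
    rw [← mul_smul, ← mul_smul, ← add_smul, hab, one_smul]
  rw [this, natCast_zsmul, natCast_zsmul]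
  exact add_mem (S.zsmul_mem h2 a) (S.zsmul_mem h1 b)

/-- the cokernel of restriction is killed by `p` -/
lemma nsmul_mem_range_resMap {p : ℕ} (π : L →+[G] N) (hN : ∀ n : N, p • n = 0)
    (f : fixedSub G (CHom (kerOf π) X)) : p • f ∈ (resMap π X).range := by
  have hm : ∀ x : L, p • x ∈ kerOf π := fun x => by rw [mem_kerOf, map_nsmul, hN]
  let h : CHom L X := ⟨f.1.hom.comp
    { toFun := fun x => (⟨p • x, hm x⟩ : kerOf π)
      map_zero' := Subtype.ext (smul_zero p)
      map_add' := fun x y => Subtype.ext (smul_add p x y) }⟩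
  refine ⟨⟨h, (CHom.fixed_iff h).2 fun g x => ?_⟩, Subtype.ext (CHom.ext' fun r => ?_)⟩
  · show f.1 ⟨p • g • x, hm _⟩ = g • f.1 ⟨p • x, hm x⟩
    rw [← (CHom.fixed_iff f.1).1 f.2]
    exact congrArg _ (Subtype.ext (smul_comm p g x))
  · show f.1 ⟨p • (r : L), hm _⟩ = (p • f.1) r
    rw [CHom.nsmul_apply, ← map_nsmul]
    rfl

instance free_kerOf {L N : Type*} [AddCommGroup L] [DistribMulAction G L] [AddCommGroup N]
    [DistribMulAction G N] [Module.Free ℤ L] [Module.Finite ℤ L] (π : L →+[G] N) :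
    Module.Free ℤ (kerOf π) :=
  Module.Free.of_equiv
    ((AddEquiv.refl (AddSubgroup.toIntSubmodule (kerOf π))).toIntLinearEquiv :
      AddSubgroup.toIntSubmodule (kerOf π) ≃ₗ[ℤ] kerOf π)

instance finite_kerOf {L N : Type*} [AddCommGroup L] [DistribMulAction G L] [AddCommGroup N]
    [DistribMulAction G N] [Module.Finite ℤ L] (π : L →+[G] N) :
    Module.Finite ℤ (kerOf π) :=
  Module.Finite.of_injective ((kerOf π).subtype.toIntLinearMap) Subtype.val_injective

section Compare

variable [Fintype G] {p : ℕ} [Fact p.Prime]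
variable {L₁ L₂ L₃ : Type} [AddCommGroup L₁] [DistribMulAction G L₁] [AddCommGroup L₂]
  [DistribMulAction G L₂] [AddCommGroup L₃] [DistribMulAction G L₃]

/-- enlarging a presentation by a lattice does not change the Euler characteristic -/
theorem eulOf_enlarge [Module.Free ℤ L₁] [Module.Finite ℤ L₁] [Module.Free ℤ L₃]
    {π₁ : L₁ →+[G] N} {π₂ : L₂ →+[G] N} (j : L₁ →+[G] L₂) (t : L₂ →+[G] L₁)
    (q : L₂ →+[G] L₃) (hπ₁ : Function.Surjective π₁) (hπj : ∀ x, π₂ (j x) = π₁ x)
    (htj : ∀ x, t (j x) = x) (hqj : ∀ x, q (j x) = 0) (hq0 : ∀ z, q z = 0 → j (t z) = z)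
    (hqs : ∀ y, ∃ z, π₂ z = 0 ∧ q z = y) (hN : ∀ n : N, p • n = 0) (hX : NormSurj p G X) :
    eulOf p π₂ X = eulOf p π₁ X ∧ (HFin (resMap π₁ X) → HFin (resMap π₂ X)) := by
  have hπ₂ : Function.Surjective π₂ := fun n => by
    obtain ⟨x, rfl⟩ := hπ₁ n
    exact ⟨j x, hπj x⟩
  have hjm : ∀ r : kerOf π₁, j r.1 ∈ kerOf π₂ := fun r => by
    rw [mem_kerOf, hπj, mem_kerOf.1 r.2]
  let j' : kerOf π₁ →+[G] kerOf π₂ :=
    { toFun := fun r => ⟨j r.1, hjm r⟩
      map_smul' := fun g r => Subtype.ext (map_smul j g _)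
      map_zero' := Subtype.ext (map_zero j)
      map_add' := fun r r' => Subtype.ext (map_add j _ _) }
  let q' : kerOf π₂ →+ L₃ := (q : L₂ →+ L₃).comp (kerOf π₂).subtype
  obtain ⟨s, hs⟩ := Module.projective_lifting_property q'.toIntLinearMap LinearMap.id
    (fun y => by obtain ⟨z, hz, hzy⟩ := hqs y; exact ⟨⟨z, hz⟩, hzy⟩)
  have hs' : ∀ y, q (s y : L₂) = y := fun y => LinearMap.congr_fun hs y
  let Ψ : fixedSub G (CHom (kerOf π₂) X) →+ fixedSub G (CHom (kerOf π₁) X) :=
    fixMap (CHom.pre j')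
  let Q₁ := (resMap π₁ X).range
  let Q₂ := (resMap π₂ X).range
  have hΨ : Q₂ ≤ Q₁.comap Ψ := by
    rintro _ ⟨h, rfl⟩
    exact ⟨fixMap (CHom.pre j) h, rfl⟩
  let Φ : fixedSub G (CHom (kerOf π₂) X) ⧸ Q₂ →+ fixedSub G (CHom (kerOf π₁) X) ⧸ Q₁ :=
    QuotientAddGroup.map Q₂ Q₁ Ψ hΨ
  have hinj : Function.Injective Φ := by
    rw [injective_iff_map_eq_zero]
    intro c hc
    induction c using QuotientAddGroup.induction_on with
    | H f =>
      obtain ⟨h, hh⟩ := (QuotientAddGroup.eq_zero_iff _).1 hc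
      refine (QuotientAddGroup.eq_zero_iff _).2 ?_
      let k : CHom (kerOf π₂) X := f.1 - CHom.pre (kerIncl π₂) (CHom.pre t h.1)
      have hk0 : ∀ z : kerOf π₂, q z.1 = 0 → k z = 0 := fun z hz => by
        have hm : t z.1 ∈ kerOf π₁ := by
          rw [mem_kerOf, ← hπj, hq0 _ hz, mem_kerOf.1 z.2]
        have he : j' ⟨t z.1, hm⟩ = z := Subtype.ext (hq0 _ hz)
        have := congrArg (fun e : fixedSub G (CHom (kerOf π₁) X) =>
          (e.1 : CHom (kerOf π₁) X) ⟨t z.1, hm⟩) hh
        change (h.1 : CHom L₁ X) (t z.1) = f.1 (j' ⟨t z.1, hm⟩) at this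
        rw [he] at this
        show f.1 z - (h.1 : CHom L₁ X) (t z.1) = 0
        rw [this, sub_self]
      have hkv : ∀ z z' : kerOf π₂, q z.1 = q z'.1 → k z = k z' := fun z z' e =>
        sub_eq_zero.1 (by
          rw [← map_sub]
          exact hk0 (z - z') (by rw [AddSubgroup.coe_sub, map_sub, e, sub_self]))
      have hkf : ∀ g : G, g • k = k := fun g => by
        rw [smul_sub, f.2 g, ← map_smul, ← map_smul, h.2 g]
      let x : CHom L₃ X := ⟨k.hom.comp s.toAddMonoidHom⟩
      have hx : ∀ g : G, g • x = x := fun g => (CHom.fixed_iff x).2 (fun g y => by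
        show k (s (g • y)) = g • k (s y)
        rw [← (CHom.fixed_iff k).1 hkf]
        refine hkv _ _ ?_
        rw [hs']
        show _ = q (g • (s y : L₂))
        rw [map_smul, hs']) g
      refine ⟨⟨CHom.pre t h.1 + CHom.pre q x, fun g => by
        rw [smul_add, ← map_smul, ← map_smul, h.2 g, hx g]⟩, Subtype.ext (CHom.ext' fun z => ?_)⟩
      show (h.1 : CHom L₁ X) (t z.1) + k (s (q z.1)) = f.1 z
      rw [hkv (s (q z.1)) z (hs' _)]
      show (h.1 : CHom L₁ X) (t z.1) + (f.1 z - (h.1 : CHom L₁ X) (t z.1)) = f.1 z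
      abel
  have hsurj : Function.Surjective Φ := by
    intro c
    induction c using QuotientAddGroup.induction_on with
    | H f =>
      obtain ⟨m, hm, φ, hφ⟩ := hX (kerOf π₁) f.1 f.2
      have hret : ∀ z : kerOf π₂, t ((z : L₂) - (s (q z.1) : L₂)) ∈ kerOf π₁ := fun z => by
        rw [mem_kerOf, ← hπj, hq0 _ (by rw [map_sub, hs', sub_self]), map_sub,
          mem_kerOf.1 z.2, mem_kerOf.1 (s _).2, sub_self]
      let ret : kerOf π₂ →+ kerOf π₁ := AddMonoidHom.mk' (fun z => ⟨_, hret z⟩) fun z z' =>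
        Subtype.ext (by
          show t ((z : L₂) + z' - (s (q ((z : L₂) + z')) : L₂)) = t _ + t _
          rw [← map_add t]
          congr 1
          rw [map_add q, map_add, AddSubgroup.coe_add]
          abel)
      let φ₂ : CHom (kerOf π₂) X := ⟨φ.hom.comp ret⟩
      have hres : CHom.pre j' φ₂ = φ := CHom.ext' fun r => by
        show φ (ret (j' r)) = φ r
        refine congrArg _ (Subtype.ext ?_)
        show t (j r.1 - (s (q (j r.1)) : L₂)) = r.1
        rw [hqj, map_zero, AddSubgroup.coe_zero, sub_zero, htj]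
      let f₂ : fixedSub G (CHom (kerOf π₂) X) := ⟨normSum G φ₂, fun g => smul_normSum g _⟩
      have e : Ψ f₂ = m • f := Subtype.ext (by
        show CHom.pre j' (normSum G φ₂) = m • f.1
        rw [map_normSum, hres, hφ])
      have hmem : (f : fixedSub G (CHom (kerOf π₁) X)) ∈ Q₁ ⊔ Ψ.range :=
        mem_of_two hm (AddSubgroup.mem_sup_right ⟨f₂, e⟩)
          (AddSubgroup.mem_sup_left (nsmul_mem_range_resMap π₁ hN f))
      obtain ⟨a, ha, b, ⟨b', hb'⟩, hab⟩ := AddSubgroup.mem_sup.1 hmem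
      refine ⟨QuotientAddGroup.mk b', (QuotientAddGroup.eq (s := Q₁)).2 ?_⟩
      rw [hb', ← hab, add_comm a b, neg_add_cancel_left]
      exact ha
  have hi : (resMap π₂ X).range.index = (resMap π₁ X).range.index :=
    Nat.card_congr (Equiv.ofBijective Φ ⟨hinj, hsurj⟩)
  have hk : Nat.card (resMap π₂ X).ker = Nat.card (resMap π₁ X).ker :=
    Nat.card_congr ((kerResEquiv π₂ hπ₂).symm.trans (kerResEquiv π₁ hπ₁))
  refine ⟨by rw [eulOf, eulOf, hv, hv, hi, hk], fun h => ⟨?_, hi ▸ h.coker⟩⟩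
  have := h.ker
  exact Nat.finite_of_card_ne_zero (hk.symm ▸ Nat.card_pos.ne')

/-- **Independence of the presentation.** -/
theorem eulOf_eq [Module.Free ℤ L₁] [Module.Finite ℤ L₁] [Module.Free ℤ L₂] [Module.Finite ℤ L₂]
    (π₁ : L₁ →+[G] N) (π₂ : L₂ →+[G] N) (hπ₁ : Function.Surjective π₁)
    (hπ₂ : Function.Surjective π₂) (hN : ∀ n : N, p • n = 0) (hX : NormSurj p G X) :
    eulOf p π₁ X = eulOf p π₂ X := by
  let π : L₁ × L₂ →+[G] N :=
    { toFun := fun z => π₁ z.1 + π₂ z.2
      map_smul' := fun g z => by simp [map_smul, smul_add]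
      map_zero' := by simp
      map_add' := fun z z' => by simp [map_add]; abel }
  let i₁ : L₁ →+[G] L₁ × L₂ :=
    { toFun := fun x => (x, 0), map_smul' := fun g x => by simp,
      map_zero' := rfl, map_add' := fun x y => by simp }
  let i₂ : L₂ →+[G] L₁ × L₂ :=
    { toFun := fun x => (0, x), map_smul' := fun g x => by simp,
      map_zero' := rfl, map_add' := fun x y => by simp }
  let p₁ : L₁ × L₂ →+[G] L₁ :=
    { toFun := Prod.fst, map_smul' := fun g x => rfl, map_zero' := rfl, map_add' := fun x y => rfl }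
  let p₂ : L₁ × L₂ →+[G] L₂ :=
    { toFun := Prod.snd, map_smul' := fun g x => rfl, map_zero' := rfl, map_add' := fun x y => rfl }
  rw [← (eulOf_enlarge (π₂ := π) i₁ p₁ p₂ hπ₁ (fun x => by show π₁ x + π₂ 0 = π₁ x; simp) (fun x => rfl)
    (fun x => rfl) (fun z hz => Prod.ext rfl (by exact hz.symm)) (fun y => by
      obtain ⟨x, hx⟩ := hπ₁ (-π₂ y)
      exact ⟨(x, y), by show π₁ x + π₂ y = 0; simp [hx], rfl⟩) hN hX).1]
  exact (eulOf_enlarge (π₂ := π) i₂ p₂ p₁ hπ₂ (fun x => by show π₁ 0 + π₂ x = π₂ x; simp) (fun x => rfl)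
    (fun x => rfl) (fun z hz => Prod.ext (by exact hz.symm) rfl) (fun y => by
      obtain ⟨x, hx⟩ := hπ₂ (-π₁ y)
      exact ⟨(y, x), by show π₁ y + π₂ x = 0; simp [hx], rfl⟩) hN hX).1

end Compare

end Fermat.Agent.ClassField.GW
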