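import Mathlib.GroupTheory.Index
import Mathlib.NumberTheory.Padics.PadicVal.Basic

/-!
# The `p`-adic Euler characteristic of a homomorphism of abelian groups

`hv p f = v_p #coker f - v_p #ker f`; it is additive under composition.
-/

set_option autoImplicit false

namespace Fermat.Agent.ClassField.GW

variable {A B C : Type*} [AddCommGroup A] [AddCommGroup B] [AddCommGroup C]

/-- finite kernel and finite cokernel -/
structure HFin (f : A →+ B) : Prop where
  ker : Finite f.ker
  coker : f.range.index ≠ 0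

/-- `v_p #coker - v_p #ker` -/
noncomputable def hv (p : ℕ) (f : A →+ B) : ℤ :=
  (padicValNat p f.range.index : ℤ) - padicValNat p (Nat.card f.ker)

theorem card_ker_comp (f : A →+ B) (g : B →+ C) :
    Nat.card (g.comp f).ker = Nat.card f.ker * Nat.card (g.ker ⊓ f.range : AddSubgroup B) := by
  let h : (g.comp f).ker →+ B := f.comp (g.comp f).ker.subtype
  have hr : h.range = g.ker ⊓ f.range := by
    ext b
    simp only [AddMonoidHom.mem_range, AddSubgroup.mem_inf, AddMonoidHom.mem_ker, h]
    constructor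
    · rintro ⟨⟨a, ha⟩, rfl⟩
      exact ⟨ha, a, rfl⟩
    · rintro ⟨hb, a, rfl⟩
      exact ⟨⟨a, hb⟩, rfl⟩
  have hk : Nat.card h.ker = Nat.card f.ker := Nat.card_congr
    { toFun := fun a => ⟨(a.1 : A), a.2⟩
      invFun := fun a => ⟨⟨a.1, by simp [AddMonoidHom.mem_ker.1 a.2]⟩, a.2⟩
      left_inv := fun a => rfl
      right_inv := fun a => rfl }
  rw [← hr, ← h.ker.card_mul_index, AddSubgroup.index_ker, hk]

theorem index_range_eq (f : A →+ B) (g : B →+ C) :
    f.range.index = (g.ker ⊓ f.range).relIndex g.ker * (f.range ⊔ g.ker).index := by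
  rw [inf_comm, AddSubgroup.inf_relIndex_right, ← AddSubgroup.relIndex_sup_left,
    AddSubgroup.relIndex_mul_index le_sup_left]

theorem index_range_comp (f : A →+ B) (g : B →+ C) :
    (g.comp f).range.index = (f.range ⊔ g.ker).index * g.range.index := by
  rw [← AddMonoidHom.map_range, AddSubgroup.index_map]

theorem card_ker_eq (f : A →+ B) (g : B →+ C) :
    Nat.card g.ker =
      Nat.card (g.ker ⊓ f.range : AddSubgroup B) * (g.ker ⊓ f.range).relIndex g.ker := by
  have h := AddSubgroup.card_mul_index ((g.ker ⊓ f.range).addSubgroupOf g.ker)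
  rw [Nat.card_congr (AddSubgroup.addSubgroupOfEquivOfLe
    (inf_le_left : g.ker ⊓ f.range ≤ g.ker)).toEquiv] at h
  exact h.symm

theorem HFin.comp {f : A →+ B} {g : B →+ C} (hf : HFin f) (hg : HFin g) : HFin (g.comp f) := by
  have := hf.ker
  have := hg.ker
  refine ⟨Nat.finite_of_card_ne_zero ?_, ?_⟩
  · rw [card_ker_comp]
    exact mul_ne_zero Nat.card_pos.ne' fun h => by
      have e := card_ker_eq f g
      rw [h, zero_mul] at e
      exact Nat.card_pos.ne' e
  · rw [index_range_comp]
    refine mul_ne_zero (fun h => hf.coker ?_) hg.coker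
    rw [index_range_eq f g, h, mul_zero]

theorem hv_comp {p : ℕ} [Fact p.Prime] {f : A →+ B} {g : B →+ C} (hf : HFin f) (hg : HFin g) :
    hv p (g.comp f) = hv p f + hv p g := by
  have := hf.ker
  have := hg.ker
  have hk : (g.ker ⊓ f.range).relIndex g.ker ≠ 0 ∧
      (f.range ⊔ g.ker).index ≠ 0 := mul_ne_zero_iff.1 (index_range_eq f g ▸ hf.coker)
  have hkg : Nat.card (g.ker ⊓ f.range : AddSubgroup B) ≠ 0 := fun h => by
    have e := card_ker_eq f g
    rw [h, zero_mul] at e
    exact Nat.card_pos.ne' e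
  rw [hv, hv, hv, card_ker_comp, index_range_comp, index_range_eq f g, card_ker_eq f g,
    padicValNat.mul hk.2 hg.coker, padicValNat.mul Nat.card_pos.ne' hkg,
    padicValNat.mul hk.1 hk.2, padicValNat.mul hkg hk.1]
  push_cast
  ring

theorem hv_addEquiv {p : ℕ} (e : A ≃+ B) : hv p (e : A →+ B) = 0 := by
  have h1 : (e : A →+ B).range = ⊤ := AddMonoidHom.range_eq_top.2 e.surjective
  have h2 : (e : A →+ B).ker = ⊥ := (AddMonoidHom.ker_eq_bot_iff _).2 e.injective
  rw [hv, h1, h2]
  simp

theorem HFin.addEquiv (e : A ≃+ B) : HFin (e : A →+ B) := by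
  refine ⟨?_, ?_⟩
  · rw [(AddMonoidHom.ker_eq_bot_iff (e : A →+ B)).2 e.injective]
    infer_instance
  · rw [AddMonoidHom.range_eq_top.2 (show Function.Surjective (e : A →+ B) from e.surjective)]
    simp

/-- invariance under a commutative square with isomorphisms -/
theorem hv_congr {p : ℕ} [Fact p.Prime] {A' B' : Type*} [AddCommGroup A'] [AddCommGroup B']
    {f : A →+ B} {f' : A' →+ B'} (eA : A ≃+ A') (eB : B ≃+ B')
    (h : ∀ a, eB (f a) = f' (eA a)) :
    hv p f = hv p f' ∧ (HFin f ↔ HFin f') := by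
  have h1 : f' = ((eB : B →+ B').comp f).comp (eA.symm : A' →+ A) :=
    AddMonoidHom.ext fun a => by simp [h]
  have hk : Nat.card f.ker = Nat.card f'.ker := Nat.card_congr
    { toFun := fun a => ⟨eA a.1, by rw [AddMonoidHom.mem_ker, ← h, AddMonoidHom.mem_ker.1 a.2, map_zero]⟩
      invFun := fun a => ⟨eA.symm a.1, eB.injective (by
        rw [h, eA.apply_symm_apply, AddMonoidHom.mem_ker.1 a.2, map_zero])⟩
      left_inv := fun a => Subtype.ext (eA.symm_apply_apply _)
      right_inv := fun a => Subtype.ext (eA.apply_symm_apply _) }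
  have hi : f.range.index = f'.range.index := by
    have : f'.range = f.range.map (eB : B →+ B') := by
      ext b
      simp only [AddMonoidHom.mem_range, AddSubgroup.mem_map, exists_exists_eq_and]
      constructor
      · rintro ⟨a, rfl⟩
        exact ⟨eA.symm a, by simp [h]⟩
      · rintro ⟨a, rfl⟩
        exact ⟨eA a, by simp [h]⟩
    rw [this, AddSubgroup.index_map_equiv f.range eB]
  refine ⟨by rw [hv, hv, hk, hi], ⟨fun hf => ⟨?_, hi ▸ hf.coker⟩, fun hf => ⟨?_, hi ▸ hf.coker⟩⟩⟩
  · have := hf.ker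
    exact Nat.finite_of_card_ne_zero (hk ▸ Nat.card_pos.ne')
  · have := hf.ker
    exact Nat.finite_of_card_ne_zero (hk.symm ▸ Nat.card_pos.ne')

theorem hv_of_finite {p : ℕ} [Fact p.Prime] [Finite A] [Finite B] (f : A →+ B) :
    hv p f = (padicValNat p (Nat.card B) : ℤ) - padicValNat p (Nat.card A) := by
  have hA : Nat.card f.ker * Nat.card f.range = Nat.card A := by
    rw [← AddSubgroup.index_ker, AddSubgroup.card_mul_index]
  rw [hv, ← hA, ← AddSubgroup.card_mul_index f.range,
    padicValNat.mul Nat.card_pos.ne' Nat.card_pos.ne',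
    padicValNat.mul Nat.card_pos.ne' AddSubgroup.index_ne_zero_of_finite]
  push_cast
  ring

end Fermat.Agent.ClassField.GW
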